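/-
Programme T1B (row 38 / S44), cell R2/BRANDT + R1, concrete W3 package (second seat: helper55):
**EXISTENCE OF A PLACE WITH A PRESCRIBED CENTRE** (`hall` provider).

Setting: `k / κ` a function field in one variable (every valuation subring `≠ ⊤` of `k` containing
`κ` is a principal ideal ring: hypothesis `hPIR`, provided by `ES/RED/PlacePIR27` from a separating
generator), `ρ : R →+* k` ANY ring homomorphism (the reduction `resChart res₁ hle : B →+* k₁` of a
chart over a number-field DVR `O_L`: its image need NOT contain `κ`), `𝔫` a maximal ideal of `R`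
containing `ker ρ`, on which `ρ` is not identically `0`, and `κ` integral over `ρ(R)` (automatic when
`κ` is algebraic over `𝔽_p`).  Then there is a place `v` of `k / κ` which has a centre on `R`
(`ρ(R) ⊆ O_v`) and whose centre `Hol80.centre v ρ _` is `𝔫`.

Proof: Chevalley (`Ideal.image_subset_nonunits_valuationSubring`) gives a valuation subring `O` of `k`
dominating `ρ(R)` at `ρ(𝔫)`; `κ ⊆ O` because valuation rings are integrally closed; `O ≠ ⊤` because
`ρ(𝔫) ≠ 0`; `O` is a PIR by `hPIR`.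
-/
import Mathlib
import Fermat.Agent.ES.RED.PlacePIR27
import Fermat.Agent.T1B.Hol80.PlaceOrd

set_option autoImplicit false
set_option linter.unusedSectionVars false

noncomputable section

namespace Fermat.Agent.T1B.Centre55

open AlgebraicCurve IntermediateField Fermat.Agent.X0

variable {κ k : Type*} [Field κ] [Field k] [Algebra κ k]
variable {R : Type*} [CommRing R]

/-- A nonzero nonunit of a valuation subring: its inverse is not in the ring. -/
theorem inv_notMem_of_mem_nonunits (O : ValuationSubring k) {x : k} (hx0 : x ≠ 0)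
    (hx : x ∈ O.nonunits) : x⁻¹ ∉ O := by
  intro hinv
  have h1 : O.valuation x < 1 := (ValuationSubring.mem_nonunits_iff (A := O)).1 hx
  have h2 : O.valuation x⁻¹ ≤ 1 := (O.valuation_le_one_iff x⁻¹).2 hinv
  have h3 : O.valuation x * O.valuation x⁻¹ = 1 := by
    rw [← map_mul, mul_inv_cancel₀ hx0, map_one]
  have h4 : O.valuation x * O.valuation x⁻¹ < 1 :=
    calc O.valuation x * O.valuation x⁻¹ ≤ O.valuation x * 1 := by gcongr
      _ = O.valuation x := mul_one _
      _ < 1 := h1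
  rw [h3] at h4
  exact lt_irrefl _ h4

/-- **Chevalley with constants**: a valuation subring of `k` containing `ρ(R)` and `κ`, `≠ ⊤`,
whose nonunits meet `ρ(R)` exactly in `ρ(𝔫)`. -/
theorem exists_valuationSubring_centre (ρ : R →+* k) (𝔫 : Ideal R) [h𝔫 : 𝔫.IsMaximal]
    (hker : RingHom.ker ρ ≤ 𝔫) (hne : ∃ b ∈ 𝔫, ρ b ≠ 0)
    (hint : ∀ c : κ, ∃ P : Polynomial R, P.Monic ∧ P.eval₂ ρ (algebraMap κ k c) = 0) :
    ∃ O : ValuationSubring k, (∀ c : κ, algebraMap κ k c ∈ O) ∧ O ≠ ⊤ ∧ (∀ b : R, ρ b ∈ O) ∧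
      ∀ b : R, ρ b ∈ O.nonunits ↔ b ∈ 𝔫 := by
  classical
  -- the image ideal in the subring `ρ(R)`
  set A : Subring k := ρ.range with hA
  set I : Ideal A := 𝔫.map ρ.rangeRestrict with hI
  have hsurj : Function.Surjective ρ.rangeRestrict := ρ.rangeRestrict_surjective
  have hkerR : RingHom.ker ρ.rangeRestrict ≤ 𝔫 := by
    intro x hx
    apply hker
    rw [RingHom.mem_ker] at hx ⊢
    have := congrArg Subtype.val hx
    simpa using this
  have hcomap : I.comap ρ.rangeRestrict = 𝔫 := by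
    rw [hI, Ideal.comap_map_of_surjective _ hsurj]
    exact sup_eq_left.mpr (by
      rw [← RingHom.ker_eq_comap_bot]
      exact hkerR)
  have hItop : I ≠ ⊤ := by
    intro htop
    have : 𝔫 = ⊤ := by rw [← hcomap, htop, Ideal.comap_top]
    exact h𝔫.ne_top this
  obtain ⟨O, hAO, hIO⟩ := Ideal.image_subset_nonunits_valuationSubring I hItop
  have hρO : ∀ b : R, ρ b ∈ O := fun b => hAO ⟨b, rfl⟩
  have hmem : ∀ b ∈ 𝔫, ρ b ∈ O.nonunits := by
    intro b hb
    apply hIO
    exact ⟨ρ.rangeRestrict b, Ideal.mem_map_of_mem _ hb, rfl⟩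
  refine ⟨O, ?_, ?_, hρO, ?_⟩
  · intro c
    exact Fermat.Agent.RED.DESC.PlaceExtend27.mem_of_monic_root O ρ hρO (hint c)
  · obtain ⟨b, hb, hb0⟩ := hne
    intro htop
    apply inv_notMem_of_mem_nonunits O hb0 (hmem b hb)
    rw [htop]
    exact ValuationSubring.mem_top _
  · -- the set `{b | ρ b ∈ nonunits}` is a proper ideal containing `𝔫`
    let J : Ideal R := (IsLocalRing.maximalIdeal ↥O).comap (ρ.codRestrict O.toSubring hρO)
    have hJ : ∀ b : R, b ∈ J ↔ ρ b ∈ O.nonunits := by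
      intro b
      rw [Ideal.mem_comap, ← ValuationSubring.coe_mem_nonunits_iff]
      rfl
    have hJprime : J.IsPrime := Ideal.comap_isPrime _ _
    have hle : 𝔫 ≤ J := fun b hb => (hJ b).2 (hmem b hb)
    have hJeq : 𝔫 = J := h𝔫.eq_of_le hJprime.ne_top hle
    intro b
    rw [← hJ b, ← hJeq]

/-- **Existence of a place with prescribed centre** (abstract form: `hPIR` = "`k / κ` is a function
field in one variable"). -/
theorem exists_place_centre_eq_of_PIR
    (hPIR : ∀ O : ValuationSubring k, (∀ c : κ, algebraMap κ k c ∈ O) → O ≠ ⊤ →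
      IsPrincipalIdealRing ↥O)
    (ρ : R →+* k) (𝔫 : Ideal R) [h𝔫 : 𝔫.IsMaximal]
    (hker : RingHom.ker ρ ≤ 𝔫) (hne : ∃ b ∈ 𝔫, ρ b ≠ 0)
    (hint : ∀ c : κ, ∃ P : Polynomial R, P.Monic ∧ P.eval₂ ρ (algebraMap κ k c) = 0) :
    ∃ (v : Place κ k) (hρ : ∀ b : R, ρ b ∈ v.toValuationSubring),
      Hol80.centre v ρ hρ = 𝔫 := by
  obtain ⟨O, hκ, htop, hρO, hcen⟩ := exists_valuationSubring_centre ρ 𝔫 hker hne hint
  let v : Place κ k := ⟨O, hκ, htop, hPIR O hκ htop⟩
  refine ⟨v, hρO, ?_⟩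
  ext b
  rw [← hcen b]
  show Hol80.toPlaceRing v ρ hρO b ∈ IsLocalRing.maximalIdeal ↥O ↔ _
  rw [← ValuationSubring.coe_mem_nonunits_iff]
  rfl

/-- **Existence of a place with prescribed centre**, for a function field with a separating
transcendental generator `xt` (`ES/RED/PlacePIR27`). -/
theorem exists_place_centre_eq {xt : k} (hx : FF.IsGen κ xt)
    (hsep : Algebra.IsSeparable ↥κ⟮xt⟯ k)
    (ρ : R →+* k) (𝔫 : Ideal R) [h𝔫 : 𝔫.IsMaximal]
    (hker : RingHom.ker ρ ≤ 𝔫) (hne : ∃ b ∈ 𝔫, ρ b ≠ 0)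
    (hint : ∀ c : κ, ∃ P : Polynomial R, P.Monic ∧ P.eval₂ ρ (algebraMap κ k c) = 0) :
    ∃ (v : Place κ k) (hρ : ∀ b : R, ρ b ∈ v.toValuationSubring),
      Hol80.centre v ρ hρ = 𝔫 :=
  exists_place_centre_eq_of_PIR
    (fun O hk hO => Fermat.Agent.ES.RED.PlacePIR27.isPrincipalIdealRing_of_ne_top hx hsep O hk hO)
    ρ 𝔫 hker hne hint

/-! ### the integrality hypothesis in characteristic `p` -/

/-- If `κ` is algebraic over `𝔽_p`, every constant is a root of a monic polynomial with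
coefficients in (the image of) ANY ring `R` mapping to `k`. -/
theorem hint_of_isAlgebraic_zmod (p : ℕ) [Fact p.Prime] [Algebra (ZMod p) κ]
    [Algebra.IsAlgebraic (ZMod p) κ] (ρ : R →+* k) (c : κ) :
    ∃ P : Polynomial R, P.Monic ∧ P.eval₂ ρ (algebraMap κ k c) = 0 := by
  classical
  have hc : IsIntegral (ZMod p) c := (Algebra.IsAlgebraic.isAlgebraic c).isIntegral
  obtain ⟨Q, hQm, hQ⟩ := hc
  -- lift `Q` to `ℤ[X]`, then push to `R[X]`
  have hsurj : Function.Surjective (Int.castRingHom (ZMod p)) := ZMod.intCast_surjective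
  obtain ⟨Q', hQ', hdeg, hmonic⟩ :=
    Polynomial.lifts_and_degree_eq_and_monic
      ((Polynomial.mem_lifts _).2 (Polynomial.map_surjective _ hsurj Q)) hQm
  refine ⟨Q'.map (Int.castRingHom R), hmonic.map _, ?_⟩
  rw [Polynomial.eval₂_map]
  -- both `ℤ → R → k` and `ℤ → ZMod p → κ → k` are THE ring hom `ℤ → k`
  have e1 : ρ.comp (Int.castRingHom R) =
      ((algebraMap κ k).comp (algebraMap (ZMod p) κ)).comp (Int.castRingHom (ZMod p)) :=
    RingHom.ext_int _ _
  rw [e1, ← Polynomial.eval₂_map, hQ', ← Polynomial.hom_eval₂, hQ, map_zero]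

/-- **Existence of a place with prescribed centre**, characteristic `p`, `κ` algebraic over `𝔽_p`
(e.g. `κ = Kap A`): NO hypothesis relating `κ` and `ρ(R)`. -/
theorem exists_place_centre_eq_of_isAlgebraic_zmod (p : ℕ) [Fact p.Prime] [Algebra (ZMod p) κ]
    [Algebra.IsAlgebraic (ZMod p) κ] {xt : k} (hx : FF.IsGen κ xt)
    (hsep : Algebra.IsSeparable ↥κ⟮xt⟯ k)
    (ρ : R →+* k) (𝔫 : Ideal R) [h𝔫 : 𝔫.IsMaximal]
    (hker : RingHom.ker ρ ≤ 𝔫) (hne : ∃ b ∈ 𝔫, ρ b ≠ 0) :
    ∃ (v : Place κ k) (hρ : ∀ b : R, ρ b ∈ v.toValuationSubring),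
      Hol80.centre v ρ hρ = 𝔫 :=
  exists_place_centre_eq hx hsep ρ 𝔫 hker hne (hint_of_isAlgebraic_zmod p ρ)

/-- `hall`-form: every maximal ideal `𝔫 ⊇ ker ρ` with `ρ(𝔫) ≠ 0` is the centre of a place, for the
family of ALL places having a centre on `R`. -/
theorem exists_subtype_centre_eq (p : ℕ) [Fact p.Prime] [Algebra (ZMod p) κ]
    [Algebra.IsAlgebraic (ZMod p) κ] {xt : k} (hx : FF.IsGen κ xt)
    (hsep : Algebra.IsSeparable ↥κ⟮xt⟯ k) (ρ : R →+* k) (𝔫 : Ideal R) (h𝔫 : 𝔫.IsMaximal)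
    (hker : RingHom.ker ρ ≤ 𝔫) (hne : ∃ b ∈ 𝔫, ρ b ≠ 0) :
    ∃ e : {v : Place κ k // ∀ b : R, ρ b ∈ v.toValuationSubring},
      Hol80.centre e.1 ρ e.2 = 𝔫 := by
  obtain ⟨v, hρ, hc⟩ := exists_place_centre_eq_of_isAlgebraic_zmod p hx hsep ρ 𝔫 hker hne
  exact ⟨⟨v, hρ⟩, hc⟩

end Fermat.Agent.T1B.Centre55
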